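import Fermat.Statements.S02

set_option autoImplicit false

namespace Fermat.Agent.S02

/-- Package a normalised solution into a Frey package. -/
theorem of_normalised (a b c : ℤ) (ha : a ≠ 0) (hb : b ≠ 0) (hc : c ≠ 0) (p : ℕ) (pp : p.Prime)
    (hp5 : 5 ≤ p) (H : a ^ p + b ^ p = c ^ p) (hgcd : Int.gcd a b = 1) (hb2 : (2 : ℤ) ∣ b) :
    Nonempty FreyPackage := by
  have hpodd : Odd p := pp.odd_of_ne_two (by omega)
  have ha_odd : ¬ (2 : ℤ) ∣ a := by
    intro h2a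
    have h2 : (2 : ℤ) ∣ ((Int.gcd a b : ℕ) : ℤ) := Int.dvd_coe_gcd h2a hb2
    rw [hgcd] at h2
    norm_num at h2
  have hbz : ((b : ℤ) : ZMod 2) = 0 := (ZMod.intCast_zmod_eq_zero_iff_dvd b 2).2 (by exact_mod_cast hb2)
  have hbz' : (((-b : ℤ)) : ZMod 2) = 0 :=
    (ZMod.intCast_zmod_eq_zero_iff_dvd (-b) 2).2 (by exact_mod_cast (dvd_neg.2 hb2))
  have hmod : a % 4 = 1 ∨ a % 4 = 3 := by omega
  rcases hmod with h1 | h3
  · -- negate everything
    refine ⟨⟨-a, -b, -c, neg_ne_zero.2 ha, neg_ne_zero.2 hb, neg_ne_zero.2 hc, p, pp, hp5, ?_, ?_, ?_,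
      hbz'⟩⟩
    · rw [hpodd.neg_pow, hpodd.neg_pow, hpodd.neg_pow, ← H]; ring
    · show ((Int.gcd (-a) (-b) : ℕ) : ℤ) = 1
      rw [Int.neg_gcd, Int.gcd_neg, hgcd]; rfl
    · have : ((-a : ℤ) : ZMod 4) = ((3 : ℤ) : ZMod 4) := by
        rw [ZMod.intCast_eq_intCast_iff_dvd_sub]
        push_cast
        omega
      simpa using this
  · refine ⟨⟨a, b, c, ha, hb, hc, p, pp, hp5, H, ?_, ?_, hbz⟩⟩
    · show ((Int.gcd a b : ℕ) : ℤ) = 1
      rw [hgcd]; rfl
    · have : ((a : ℤ) : ZMod 4) = ((3 : ℤ) : ZMod 4) := by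
        rw [ZMod.intCast_eq_intCast_iff_dvd_sub]
        push_cast
        omega
      simpa using this

/-- Package a coprime solution into a Frey package. -/
theorem of_coprime (a b c : ℤ) (ha : a ≠ 0) (hb : b ≠ 0) (hc : c ≠ 0) (p : ℕ) (pp : p.Prime)
    (hp5 : 5 ≤ p) (H : a ^ p + b ^ p = c ^ p) (hgcd : Int.gcd a b = 1) :
    Nonempty FreyPackage := by
  have hpodd : Odd p := pp.odd_of_ne_two (by omega)
  have hp0 : p ≠ 0 := pp.ne_zero
  have hppos : 0 < p := pp.pos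
  have hgcd' : gcd a b = 1 := by
    show ((Int.gcd a b : ℕ) : ℤ) = 1
    rw [hgcd]; rfl
  have hgcdac : Int.gcd a c = 1 := by
    have h := FreyPackage.gcdab_eq_gcdac hppos H
    rw [hgcd'] at h
    have h' : ((Int.gcd a c : ℕ) : ℤ) = 1 := h.symm
    exact_mod_cast h'
  by_cases hb2 : (2 : ℤ) ∣ b
  · exact of_normalised a b c ha hb hc p pp hp5 H hgcd hb2
  · by_cases ha2 : (2 : ℤ) ∣ a
    · exact of_normalised b a c hb ha hc p pp hp5 (by rw [add_comm]; exact H)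
        (by rw [Int.gcd_comm]; exact hgcd) ha2
    · -- both odd, so c is even
      have hc2 : (2 : ℤ) ∣ c := by
        have hao : Odd a := by
          rw [← Int.not_even_iff_odd, even_iff_two_dvd]; exact ha2
        have hbo : Odd b := by
          rw [← Int.not_even_iff_odd, even_iff_two_dvd]; exact hb2
        have hsum : Even (a ^ p + b ^ p) := Odd.add_odd (hao.pow) (hbo.pow)
        rw [H] at hsum
        have : Even c := (Int.even_pow.1 hsum).1
        exact even_iff_two_dvd.1 this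
      refine of_normalised a (-c) (-b) ha (neg_ne_zero.2 hc) (neg_ne_zero.2 hb) p pp hp5 ?_ ?_
        (dvd_neg.2 hc2)
      · rw [hpodd.neg_pow, hpodd.neg_pow, ← H]; ring
      · rw [Int.gcd_neg]; exact hgcdac

theorem result (a b c : ℤ) (ha : a ≠ 0) (hb : b ≠ 0) (hc : c ≠ 0) (p : ℕ) (pp : p.Prime) (hp5 : 5 ≤ p) (H : a ^ p + b ^ p = c ^ p) : Nonempty FreyPackage := by
  have hp0 : p ≠ 0 := pp.ne_zero
  have hdpos : 0 < Int.gcd a b := Int.gcd_pos_of_ne_zero_left b ha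
  obtain ⟨a', b', hgcd, ha', hb'⟩ := Int.exists_gcd_one hdpos
  set d : ℤ := (Int.gcd a b : ℤ) with hd
  have hd0 : d ≠ 0 := by
    rw [hd]; exact_mod_cast hdpos.ne'
  have ha'0 : a' ≠ 0 := by
    rintro rfl
    apply ha
    rw [ha']; simp
  have hb'0 : b' ≠ 0 := by
    rintro rfl
    apply hb
    rw [hb']; simp
  have hdc : d ∣ c := by
    rw [← Int.pow_dvd_pow_iff hp0, ← H]
    apply dvd_add
    · rw [Int.pow_dvd_pow_iff hp0]; exact ⟨a', by rw [mul_comm]; exact ha'⟩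
    · rw [Int.pow_dvd_pow_iff hp0]; exact ⟨b', by rw [mul_comm]; exact hb'⟩
  obtain ⟨c', hc'⟩ := hdc
  have hc'0 : c' ≠ 0 := by
    rintro rfl
    apply hc
    rw [hc']; simp
  have H' : a' ^ p + b' ^ p = c' ^ p := by
    have h1 : d ^ p * (a' ^ p + b' ^ p) = d ^ p * c' ^ p := by
      have : a ^ p + b ^ p = c ^ p := H
      rw [ha', hb', hc'] at this
      rw [mul_add, ← mul_pow, ← mul_pow, ← mul_pow]
      rw [mul_comm d a', mul_comm d b']
      exact this
    exact mul_left_cancel₀ (pow_ne_zero p hd0) h1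
  exact of_coprime a' b' c' ha'0 hb'0 hc'0 p pp hp5 H' hgcd

end Fermat.Agent.S02
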