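import Fermat.Statements.S08
import Fermat.Prelude.Thm_ModularForm_sturm_bound_Gamma0
import Fermat.Prelude.Thm_CongruenceSubgroup_one_mem_strictPeriods_Gamma0

set_option autoImplicit false
open WeierstrassCurve WeierstrassCurve.Affine WeierstrassCurve.Affine.Point
open CuspForm ModularFormClass UpperHalfPlane
open ModularForm

namespace Fermat.Agent.S08

theorem cusp_eq_zero_of_sturm (N : ℕ) [NeZero N]
    (hidx : (2 * ((CongruenceSubgroup.Gamma0 N).index : ℤ)).toNat / 12 = 0)
    (f : CuspForm (CongruenceSubgroup.Gamma0 N) 2) : f = 0 := by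
  have h1 : (1 : ℝ) ∈ (Subgroup.map (Matrix.SpecialLinearGroup.mapGL ℝ)
      (CongruenceSubgroup.Gamma0 N)).strictPeriods :=
    CongruenceSubgroup.one_mem_strictPeriods_Gamma0 N
  have hf0 : (qExpansion 1 f).coeff 0 = 0 :=
    CuspFormClass.qExpansion_coeff_zero f one_pos h1
  have key : (CuspForm.toModularFormₗ f) = 0 := by
    apply ModularForm.sturm_bound_Gamma0 N
    intro n hn
    rw [hidx] at hn
    have hn0 : n = 0 := by omega
    subst hn0
    exact hf0
  exact CuspForm.toModularFormₗ_injective (by rw [key, _root_.map_zero])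

theorem result (f : CuspForm (CongruenceSubgroup.Gamma0 1) 2) : f = 0 := by
  apply cusp_eq_zero_of_sturm 1
  have htop : CongruenceSubgroup.Gamma0 1 = ⊤ := by
    ext A
    simp only [CongruenceSubgroup.Gamma0_mem, Subgroup.mem_top, iff_true]
    exact Subsingleton.elim _ _
  rw [htop, Subgroup.index_top]
  rfl

end Fermat.Agent.S08
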