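import Fermat.Statements.S07
import Fermat.Agent.S08

set_option autoImplicit false
open WeierstrassCurve WeierstrassCurve.Affine WeierstrassCurve.Affine.Point
open CuspForm ModularFormClass UpperHalfPlane
open ModularForm

namespace Fermat.Agent.S07

open scoped MatrixGroups

/-- The first column mod 2 of a matrix in `SL(2, ℤ)`. -/
def firstCol (A : SL(2, ℤ)) : ZMod 2 × ZMod 2 :=
  ((A 0 0 : ℤ), (A 1 0 : ℤ))

theorem mem_of_firstCol_eq (A B : SL(2, ℤ)) (h : firstCol A = firstCol B) :
    A⁻¹ * B ∈ CongruenceSubgroup.Gamma0 2 := by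
  rw [CongruenceSubgroup.Gamma0_mem]
  simp only [firstCol, Prod.mk.injEq] at h
  obtain ⟨h0, h1⟩ := h
  have hentry : (A⁻¹ * B) 1 0 = - A 1 0 * B 0 0 + A 0 0 * B 1 0 := by
    rw [Matrix.SpecialLinearGroup.coe_mul, Matrix.mul_apply, Fin.sum_univ_two,
      Matrix.SpecialLinearGroup.SL2_inv_expl]
    simp
  rw [hentry]
  push_cast
  rw [h0, h1]
  ring

theorem index_Gamma0_two_le : (CongruenceSubgroup.Gamma0 2).index ≤ 4 := by
  classical
  rw [Subgroup.index_eq_card]
  let g : ZMod 2 × ZMod 2 → SL(2, ℤ) ⧸ CongruenceSubgroup.Gamma0 2 := fun v =>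
    if h : ∃ A : SL(2, ℤ), firstCol A = v then QuotientGroup.mk h.choose else QuotientGroup.mk 1
  have hg : Function.Surjective g := by
    intro x
    induction x using QuotientGroup.induction_on with
    | H B =>
      refine ⟨firstCol B, ?_⟩
      have hex : ∃ A : SL(2, ℤ), firstCol A = firstCol B := ⟨B, rfl⟩
      simp only [g, dif_pos hex]
      rw [QuotientGroup.eq]
      exact mem_of_firstCol_eq _ _ hex.choose_spec
  have := Nat.card_le_card_of_surjective g hg
  have hc : Nat.card (ZMod 2 × ZMod 2) = 4 := by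
    rw [Nat.card_prod, Nat.card_zmod]
  omega

theorem result (f : CuspForm (CongruenceSubgroup.Gamma0 2) 2) : f = 0 := by
  apply Fermat.Agent.S08.cusp_eq_zero_of_sturm 2
  have := index_Gamma0_two_le
  omega

end Fermat.Agent.S07
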