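import Fermat.Statements.S10
import Fermat.Agent.Kummer.Main

set_option autoImplicit false
open WeierstrassCurve WeierstrassCurve.Affine WeierstrassCurve.Affine.Point
open CuspForm ModularFormClass UpperHalfPlane
open FreyPackage

namespace Fermat.Agent.S10

theorem result (P : FreyPackage) (hp : P.p = 5 ∨ P.p = 7 ∨ P.p = 13) : ¬ HasGaloisStableCofixedLine (K := AlgebraicClosure ℚ) ℚ P.freyCurve P.p := by
  exfalso
  have hp' : P.p = 5 ∨ P.p = 7 ∨ P.p = 11 ∨ P.p = 13 := by
    rcases hp with h | h | h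
    · exact Or.inl h
    · exact Or.inr (Or.inl h)
    · exact Or.inr (Or.inr (Or.inr h))
  have hab : IsCoprime P.a P.b := by
    rw [← gcd_isUnit_iff]
    rw [P.hgcdab]
    exact isUnit_one
  exact Fermat.Agent.Kummer.no_solution hp' P.ha0 P.hb0 P.hc0 hab P.hFLT

end Fermat.Agent.S10
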