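import Mathlib
import Fermat.Prelude.Def_EllipticCurve_FrobeniusTrace

set_option autoImplicit false

namespace Fermat.Agent.S54

open Polynomial

/-- An element lying in every valuation subring of a field is integral over `ℤ`. -/
theorem isIntegral_int_of_forall_mem {K : Type*} [Field K] (y : K)
    (h : ∀ W : ValuationSubring K, y ∈ W) : IsIntegral ℤ y := by
  have hmem : y ∈ (⨅ V : {V : ValuationSubring K // (∅ : Set K) ⊆ V.toSubring}, V.1.toSubring) := by
    rw [Subring.mem_iInf]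
    intro V
    exact h V.1
  rw [iInf_valuationSubring_superset] at hmem
  have hint : IsIntegral (Subring.closure (∅ : Set K)) y := hmem
  have : Algebra.IsIntegral ℤ (Subring.closure (∅ : Set K)) := by
    constructor
    rintro ⟨a, ha⟩
    rw [Subring.closure_empty, Subring.mem_bot] at ha
    obtain ⟨n, rfl⟩ := ha
    have : (⟨(n : K), ha⟩ : Subring.closure (∅ : Set K)) = algebraMap ℤ _ n := by
      ext; simp
    rw [this]
    exact isIntegral_algebraMap
  exact isIntegral_trans y hint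

theorem mul_mem_nonunits {K : Type*} [Field K] (A : ValuationSubring K) {a b : K}
    (ha : a ∈ A) (hb : b ∈ A.nonunits) : a * b ∈ A.nonunits := by
  rw [A.mem_nonunits_iff_exists_mem_maximalIdeal] at hb ⊢
  obtain ⟨hbA, hb'⟩ := hb
  exact ⟨A.mul_mem _ _ ha hbA, Ideal.mul_mem_left _ (⟨a, ha⟩ : A) hb'⟩

theorem one_not_mem_nonunits {K : Type*} [Field K] (A : ValuationSubring K) :
    (1 : K) ∉ A.nonunits := by
  rw [A.mem_nonunits_iff, map_one]
  exact lt_irrefl _

theorem intCast_mem_valuationSubring {K : Type*} [Field K] (A : ValuationSubring K) (c : ℤ) :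
    (c : K) ∈ A := intCast_mem A c

theorem intCast_mem_nonunits_of_dvd {K : Type*} [Field K] (A : ValuationSubring K) (ℓ : ℕ)
    (hA : (ℓ : K) ∈ A.nonunits) {c : ℤ} (hc : (ℓ : ℤ) ∣ c) : (c : K) ∈ A.nonunits := by
  obtain ⟨k, rfl⟩ := hc
  have := mul_mem_nonunits A (intCast_mem_valuationSubring A k) hA
  push_cast
  rwa [mul_comm]

theorem intCast_not_mem_nonunits {K : Type*} [Field K] (A : ValuationSubring K) (ℓ : ℕ)
    (hℓ : ℓ.Prime) (hA : (ℓ : K) ∈ A.nonunits) {c : ℤ} (hc : ¬ (ℓ : ℤ) ∣ c) :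
    (c : K) ∉ A.nonunits := by
  intro hcm
  have hcop : IsCoprime (ℓ : ℤ) c := (Nat.prime_iff_prime_int.mp hℓ).coprime_iff_not_dvd.mpr hc
  obtain ⟨u, v, huv⟩ := hcop
  have h1 : ((u : K) * (ℓ : K) + (v : K) * (c : K)) ∈ A.nonunits :=
    add_mem (mul_mem_nonunits A (intCast_mem_valuationSubring A u) hA)
      (mul_mem_nonunits A (intCast_mem_valuationSubring A v) hcm)
  have h2 : ((u : K) * (ℓ : K) + (v : K) * (c : K)) = 1 := by
    have := congrArg (fun t : ℤ => (t : K)) huv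
    push_cast at this
    exact this
  rw [h2] at h1
  exact one_not_mem_nonunits A h1

/-- Key fact: an algebraic element of a valuation ring lying over `ℓ` is a quotient of
algebraic integers with denominator a unit of the valuation ring. -/
theorem exists_integral_mul_eq {K : Type*} [Field K] [CharZero K] (A : ValuationSubring K) (ℓ : ℕ)
    (hℓ : ℓ.Prime) (hA : (ℓ : K) ∈ A.nonunits) (x : K) (hx : x ∈ A) (halg : IsAlgebraic ℤ x) :
    ∃ y z : K, IsIntegral ℤ y ∧ IsIntegral ℤ z ∧ y ∈ A ∧ y ∉ A.nonunits ∧ x * y = z := by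
  classical
  obtain ⟨p0, hp0, hp0x⟩ := halg
  set p := p0.primPart with hp
  have hpprim : p.IsPrimitive := p0.isPrimitive_primPart
  have hpx : aeval x p = 0 := aeval_primPart_eq_zero hp0 hp0x
  have hex : ∃ i, ¬ (ℓ : ℤ) ∣ p.coeff i := by
    by_contra hall
    push Not at hall
    have h1 : C (ℓ : ℤ) ∣ p := (Polynomial.C_dvd_iff_dvd_coeff _ _).2 hall
    have h2 : IsUnit (ℓ : ℤ) := hpprim _ h1
    exact (Nat.prime_iff_prime_int.mp hℓ).not_isUnit h2
  obtain ⟨i0, hi0⟩ := hex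
  set n := p.natDegree with hn
  have hi0n : i0 ≤ n := by
    by_contra hlt
    push Not at hlt
    apply hi0
    rw [coeff_eq_zero_of_natDegree_lt hlt]
    exact dvd_zero _
  set r := Nat.findGreatest (fun i => ¬ (ℓ : ℤ) ∣ p.coeff i) n with hr
  have hr1 : ¬ (ℓ : ℤ) ∣ p.coeff r := Nat.findGreatest_spec (P := fun i => ¬ (ℓ : ℤ) ∣ p.coeff i) hi0n hi0
  have hrn : r ≤ n := Nat.findGreatest_le n
  have hr2 : ∀ i, r < i → (ℓ : ℤ) ∣ p.coeff i := by
    intro i hi
    by_cases hin : i ≤ n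
    · by_contra hnd
      exact Nat.findGreatest_is_greatest (P := fun i => ¬ (ℓ : ℤ) ∣ p.coeff i) hi hin hnd
    · push Not at hin
      rw [coeff_eq_zero_of_natDegree_lt hin]
      exact dvd_zero _
  set m := n + 1 - r with hm
  have hrm : r + m = n + 1 := by omega
  set y : K := ∑ i ∈ Finset.range m, (p.coeff (r + i) : K) * x ^ i with hy
  set low : K := ∑ i ∈ Finset.range r, (p.coeff i : K) * x ^ i with hlow
  have hsum : low + x ^ r * y = 0 := by
    have h1 : aeval x p = ∑ i ∈ Finset.range (n + 1), (p.coeff i : K) * x ^ i := by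
      rw [aeval_eq_sum_range]
      refine Finset.sum_congr rfl fun i _ => ?_
      rw [zsmul_eq_mul]
    rw [← hrm, Finset.sum_range_add] at h1
    rw [← hpx, h1, hlow, hy, Finset.mul_sum]
    congr 1
    refine Finset.sum_congr rfl fun i _ => ?_
    rw [pow_add]; ring
  have hW : ∀ W : ValuationSubring K, y ∈ W ∧ x * y ∈ W := by
    intro W
    by_cases hxW : x ∈ W
    · have hyW : y ∈ W :=
        sum_mem fun i _ => W.mul_mem _ _ (intCast_mem_valuationSubring W _) (pow_mem hxW i)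
      exact ⟨hyW, W.mul_mem _ _ hxW hyW⟩
    · have hxinv : x⁻¹ ∈ W := (W.mem_or_inv_mem x).resolve_left hxW
      have hx0 : x ≠ 0 := by
        rintro rfl
        exact hxW W.zero_mem
      have hz : x * y ∈ W := by
        rcases Nat.eq_zero_or_pos r with hr0 | hrpos
        · have hy0 : y = 0 := by
            have := hsum
            rw [hlow, hr0] at this
            simpa using this
          rw [hy0, mul_zero]
          exact W.zero_mem
        · obtain ⟨r', hr'⟩ : ∃ r', r = r' + 1 := ⟨r - 1, by omega⟩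
          have h1 : x ^ r' * (x * y) = -low := by
            have : x ^ r' * (x * y) = x ^ r * y := by rw [hr', pow_succ]; ring
            rw [this]
            linear_combination hsum
          have h2 : x * y = -∑ i ∈ Finset.range r, (p.coeff i : K) * (x⁻¹) ^ (r' - i) := by
            have h3 : x * y = (x⁻¹) ^ r' * (x ^ r' * (x * y)) := by
              rw [← mul_assoc, ← mul_pow, inv_mul_cancel₀ hx0, one_pow, one_mul]
            rw [h3, h1, hlow, mul_neg, Finset.mul_sum]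
            congr 1
            refine Finset.sum_congr rfl fun i hi => ?_
            have hir : i ≤ r' := by
              have := Finset.mem_range.mp hi
              omega
            have h4 : (x⁻¹) ^ r' = (x⁻¹) ^ (r' - i) * (x⁻¹) ^ i := by
              rw [← pow_add]; congr 1; omega
            rw [h4]
            have h5 : (x⁻¹) ^ i * x ^ i = 1 := by
              rw [← mul_pow, inv_mul_cancel₀ hx0, one_pow]
            calc (x⁻¹) ^ (r' - i) * (x⁻¹) ^ i * ((p.coeff i : K) * x ^ i)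
                = (p.coeff i : K) * (x⁻¹) ^ (r' - i) * ((x⁻¹) ^ i * x ^ i) := by ring
              _ = (p.coeff i : K) * (x⁻¹) ^ (r' - i) := by rw [h5, mul_one]
          rw [h2]
          exact W.neg_mem _ (sum_mem fun i _ =>
            W.mul_mem _ _ (intCast_mem_valuationSubring W _) (pow_mem hxinv _))
      refine ⟨?_, hz⟩
      have : y = x⁻¹ * (x * y) := by
        rw [← mul_assoc, inv_mul_cancel₀ hx0, one_mul]
      rw [this]
      exact W.mul_mem _ _ hxinv hz
  refine ⟨y, x * y, isIntegral_int_of_forall_mem y fun W => (hW W).1,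
    isIntegral_int_of_forall_mem (x * y) fun W => (hW W).2, ?_, ?_, rfl⟩
  · exact sum_mem fun i _ => A.mul_mem _ _ (intCast_mem_valuationSubring A _) (pow_mem hx i)
  · intro hyn
    have hm1 : m = (m - 1) + 1 := by omega
    have hy' : y = (p.coeff r : K) + ∑ i ∈ Finset.range (m - 1), (p.coeff (r + (i + 1)) : K) * x ^ (i + 1) := by
      rw [hy, hm1, Finset.sum_range_succ']
      simp [add_comm]
    have htail : ∑ i ∈ Finset.range (m - 1), (p.coeff (r + (i + 1)) : K) * x ^ (i + 1) ∈ A.nonunits := by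
      refine sum_mem fun i _ => ?_
      have h1 : ((p.coeff (r + (i + 1)) : ℤ) : K) ∈ A.nonunits :=
        intCast_mem_nonunits_of_dvd A ℓ hA (hr2 _ (by omega))
      have := mul_mem_nonunits A (pow_mem hx (i + 1)) h1
      rwa [mul_comm] at this
    have hcr : (p.coeff r : K) ∈ A.nonunits := by
      have : (p.coeff r : K) = y - ∑ i ∈ Finset.range (m - 1), (p.coeff (r + (i + 1)) : K) * x ^ (i + 1) := by
        rw [hy']; ring
      rw [this]
      exact sub_mem hyn htail
    exact intCast_not_mem_nonunits A ℓ hℓ hA hr1 hcr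


theorem exists_valuationSubring_liesOver (ℓ : ℕ) (hℓ : ℓ.Prime) :
    ∃ A : ValuationSubring (AlgebraicClosure ℚ), A.LiesOverPrime ℓ := by
  let A₀ : Subring (AlgebraicClosure ℚ) := (Int.castRingHom (AlgebraicClosure ℚ)).range
  let l₀ : A₀ := ⟨(ℓ : AlgebraicClosure ℚ), ⟨(ℓ : ℤ), by simp⟩⟩
  have hI : Ideal.span {l₀} ≠ ⊤ := by
    intro htop
    rw [Ideal.span_singleton_eq_top] at htop
    obtain ⟨u, hu⟩ := htop
    obtain ⟨⟨v, ⟨n, hn⟩⟩, hv⟩ : ∃ v : A₀, l₀ * v = 1 := ⟨↑(u⁻¹), by rw [← hu]; simp⟩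
    have h1 : ((ℓ : AlgebraicClosure ℚ)) * v = 1 := congrArg Subtype.val hv
    rw [← hn] at h1
    have h2 : ((ℓ : ℤ) * n : ℤ) = 1 := by
      have : (((ℓ : ℤ) * n : ℤ) : AlgebraicClosure ℚ) = ((1 : ℤ) : AlgebraicClosure ℚ) := by
        push_cast
        simpa using h1
      exact Int.cast_injective this
    have h3 : (ℓ : ℤ) ∣ 1 := ⟨n, h2.symm⟩
    have h4 : ℓ ∣ 1 := by exact_mod_cast h3
    exact hℓ.one_lt.ne' (Nat.dvd_one.mp h4)
  obtain ⟨B, -, hB⟩ := Ideal.image_subset_nonunits_valuationSubring _ hI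
  exact ⟨B, hB ⟨l₀, Ideal.subset_span rfl, rfl⟩⟩


theorem mem_of_isIntegral_int {K : Type*} [Field K] (A : ValuationSubring K) {b : K}
    (hb : IsIntegral ℤ b) : b ∈ A := by
  have h1 : IsIntegral A b := hb.tower_top
  obtain ⟨y, hy⟩ := IsIntegrallyClosed.isIntegral_iff.mp h1
  rw [← hy]
  exact y.2

theorem not_mem_nonunits_iff {K : Type*} [Field K] (A : ValuationSubring K) {x : K} :
    x ∉ A.nonunits ↔ x ≠ 0 ∧ x⁻¹ ∈ A := by
  rw [A.mem_nonunits_iff_or]
  push Not
  rfl

theorem mul_not_mem_nonunits {K : Type*} [Field K] (A : ValuationSubring K) {x y : K}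
    (hx : x ∉ A.nonunits) (hy : y ∉ A.nonunits) : x * y ∉ A.nonunits := by
  rw [not_mem_nonunits_iff] at hx hy ⊢
  refine ⟨mul_ne_zero hx.1 hy.1, ?_⟩
  rw [mul_inv]
  exact A.mul_mem _ _ hx.2 hy.2

open scoped Pointwise

section

local notation "Qb" => AlgebraicClosure ℚ
local notation "Γ" => (AlgebraicClosure ℚ ≃ₐ[ℚ] AlgebraicClosure ℚ)

theorem isAlgebraic_qbar : Algebra.IsAlgebraic ℚ (AlgebraicClosure ℚ) :=
  AlgebraicClosure.isAlgebraic ℚ

attribute [local instance] isAlgebraic_qbar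

theorem normal_qbar : Normal ℚ (AlgebraicClosure ℚ) :=
  haveI : IsAlgClosure ℚ (AlgebraicClosure ℚ) := ⟨inferInstance, inferInstance⟩
  IsAlgClosure.normal ℚ (AlgebraicClosure ℚ)

theorem isGalois_qbar : IsGalois ℚ (AlgebraicClosure ℚ) :=
  isGalois_iff.mpr ⟨inferInstance, normal_qbar⟩

attribute [local instance] isGalois_qbar

theorem isAlgebraic_int_qbar (x : Qb) : IsAlgebraic ℤ x :=
  (IsFractionRing.isAlgebraic_iff ℤ ℚ (AlgebraicClosure ℚ)).mpr (Algebra.IsAlgebraic.isAlgebraic x)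

/-- An automorphism preserving the "prime" of algebraic integers cut out by `A` maps `A` into
itself. -/
theorem map_mem_of_stab (ℓ : ℕ) (hℓ : ℓ.Prime) (A : ValuationSubring Qb)
    (hA : A.LiesOverPrime ℓ) (τ : Γ)
    (hstab : ∀ b : Qb, IsIntegral ℤ b → b ∉ A.nonunits → τ b ∉ A.nonunits)
    (x : Qb) (hx : x ∈ A) : τ x ∈ A := by
  obtain ⟨y, z, hy, hz, -, hyn, hxyz⟩ :=
    exists_integral_mul_eq A ℓ hℓ hA x hx (isAlgebraic_int_qbar x)
  have h1 : τ x * τ y = τ z := by rw [← map_mul, hxyz]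
  have h2 := (not_mem_nonunits_iff A).mp (hstab y hy hyn)
  have h3 : τ x = τ z * (τ y)⁻¹ := by
    rw [← h1, mul_assoc, mul_inv_cancel₀ h2.1, mul_one]
  rw [h3]
  exact A.mul_mem _ _ (mem_of_isIntegral_int A (hz.map τ)) h2.2

theorem isFrobeniusAt_of_stab (ℓ : ℕ) (hℓ : ℓ.Prime) (A : ValuationSubring Qb)
    (hA : A.LiesOverPrime ℓ) (σ : Γ)
    (hstab : ∀ b : Qb, IsIntegral ℤ b → (b ∈ A.nonunits ↔ σ b ∈ A.nonunits))
    (hfrob : ∀ b : Qb, IsIntegral ℤ b → σ b - b ^ ℓ ∈ A.nonunits) :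
    A.IsFrobeniusAt σ ℓ := by
  have hσ1 : ∀ x ∈ A, σ x ∈ A :=
    map_mem_of_stab ℓ hℓ A hA σ fun b hb hbn => fun h => hbn ((hstab b hb).mpr h)
  have hσ2 : ∀ x ∈ A, σ⁻¹ x ∈ A := by
    refine map_mem_of_stab ℓ hℓ A hA σ⁻¹ fun b hb hbn => fun h => hbn ?_
    have := (hstab (σ⁻¹ b) (hb.map σ⁻¹)).mp h
    simpa using this
  have hdec : σ ∈ A.decompositionSubgroup ℚ := by
    rw [MulAction.mem_stabilizer_iff]
    ext x
    rw [ValuationSubring.mem_pointwise_smul_iff_inv_smul_mem]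
    constructor
    · intro h
      have := hσ1 _ h
      simpa using this
    · intro h
      exact hσ2 x h
  refine ⟨hdec, fun xbar => ?_⟩
  obtain ⟨x, rfl⟩ := IsLocalRing.residue_surjective xbar
  rw [← IsLocalRing.ResidueField.residue_smul, ← map_pow]
  rw [← sub_eq_zero, ← map_sub, IsLocalRing.residue_eq_zero_iff, ← A.coe_mem_nonunits_iff]
  show σ (x : Qb) - (x : Qb) ^ ℓ ∈ A.nonunits
  obtain ⟨y, z, hy, hz, hyA, hyn, hxyz⟩ :=
    exists_integral_mul_eq A ℓ hℓ hA x x.2 (isAlgebraic_int_qbar x)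
  have hσy := (not_mem_nonunits_iff A).mp (fun h => hyn ((hstab y hy).mpr h))
  have key : (σ (x : Qb) - (x : Qb) ^ ℓ) * σ y
      = (σ z - z ^ ℓ) - (x : Qb) ^ ℓ * (σ y - y ^ ℓ) := by
    have h1 : σ (x : Qb) * σ y = σ z := by rw [← map_mul, hxyz]
    have h2 : z ^ ℓ = (x : Qb) ^ ℓ * y ^ ℓ := by rw [← hxyz, mul_pow]
    rw [sub_mul, h1, h2]; ring
  have hmem : (σ (x : Qb) - (x : Qb) ^ ℓ) * σ y ∈ A.nonunits := by
    rw [key]
    exact sub_mem (hfrob z hz) (mul_mem_nonunits A (pow_mem x.2 ℓ) (hfrob y hy))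
  have : σ (x : Qb) - (x : Qb) ^ ℓ = (σ y)⁻¹ * ((σ (x : Qb) - (x : Qb) ^ ℓ) * σ y) := by
    rw [mul_comm _ (σ y), ← mul_assoc, inv_mul_cancel₀ hσy.1, one_mul]
  rw [this]
  exact mul_mem_nonunits A hσy.2 hmem


/-- The prime of the ring of all algebraic integers cut out by a valuation subring. -/
def primeOf (A : ValuationSubring Qb) : Ideal (integralClosure ℤ Qb) where
  carrier := {b | (b : Qb) ∈ A.nonunits}
  add_mem' := fun {a b} ha hb => by
    show ((a + b : integralClosure ℤ Qb) : Qb) ∈ A.nonunits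
    rw [Subalgebra.coe_add]
    exact add_mem ha hb
  zero_mem' := by
    show ((0 : integralClosure ℤ Qb) : Qb) ∈ A.nonunits
    rw [Subalgebra.coe_zero]
    exact zero_mem _
  smul_mem' := fun c b hb => by
    show ((c • b : integralClosure ℤ Qb) : Qb) ∈ A.nonunits
    rw [smul_eq_mul, Subalgebra.coe_mul]
    exact mul_mem_nonunits A (mem_of_isIntegral_int A c.2) hb

theorem mem_primeOf (A : ValuationSubring Qb) (b : integralClosure ℤ Qb) :
    b ∈ primeOf A ↔ (b : Qb) ∈ A.nonunits := Iff.rfl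

theorem primeOf_isPrime (A : ValuationSubring Qb) : (primeOf A).IsPrime := by
  rw [Ideal.isPrime_iff]
  constructor
  · rw [Ideal.ne_top_iff_one, mem_primeOf, Subalgebra.coe_one]
    exact one_not_mem_nonunits A
  · intro x y hxy
    by_contra hcon
    push Not at hcon
    rw [mem_primeOf, Subalgebra.coe_mul] at hxy
    exact mul_not_mem_nonunits A hcon.1 hcon.2 hxy

theorem exists_frobenius (ℓ : ℕ) (hℓ : ℓ.Prime) :
    ∃ (A : ValuationSubring Qb) (σ : Γ), A.LiesOverPrime ℓ ∧ A.IsFrobeniusAt σ ℓ := by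
  obtain ⟨A, hA⟩ := exists_valuationSubring_liesOver ℓ hℓ
  have : Fact ℓ.Prime := ⟨hℓ⟩
  let Q : Ideal (integralClosure ℤ Qb) := primeOf A
  have hQp : Q.IsPrime := primeOf_isPrime A
  let P : Ideal ℤ := Q.under ℤ
  let _ : TopologicalSpace (integralClosure ℤ Qb) := ⊥
  have : DiscreteTopology (integralClosure ℤ Qb) := ⟨rfl⟩
  have : ContinuousSMul Γ (integralClosure ℤ Qb) := by
    rw [continuousSMul_iff_stabilizer_isOpen]
    intro x
    have : MulAction.stabilizer Γ x = MulAction.stabilizer Γ (x : Qb) := by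
      ext σ
      simp only [MulAction.mem_stabilizer_iff, Subtype.ext_iff, integralClosure.coe_smul]
    rw [this]
    exact stabilizer_isOpen_of_isIntegral (x : Qb)
  have : Algebra.IsInvariant ℤ (integralClosure ℤ Qb) Γ := by
    refine ⟨fun b hb => ?_⟩
    have h1 : (b : Qb) ∈ Set.range (algebraMap ℚ Qb) := by
      rw [InfiniteGalois.mem_range_algebraMap_iff_fixed]
      intro f
      have := congrArg Subtype.val (hb f)
      simpa using this
    obtain ⟨q, hq⟩ := h1
    have h2 : IsIntegral ℤ q := by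
      have : IsIntegral ℤ (algebraMap ℚ Qb q) := hq ▸ b.2
      exact (isIntegral_algebraMap_iff (algebraMap ℚ Qb).injective).mp this
    obtain ⟨n, hn⟩ := IsIntegrallyClosed.isIntegral_iff.mp h2
    refine ⟨n, Subtype.ext ?_⟩
    rw [← hq, ← hn]
    simp
  -- the residue ring has characteristic `ℓ`
  have hℓQ : ((ℓ : ℕ) : integralClosure ℤ Qb) ∈ Q := by
    rw [mem_primeOf]
    have h : (ℓ : Qb) ∈ A.nonunits := hA
    simpa using h
  have : CharP (integralClosure ℤ Qb ⧸ Q) ℓ := by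
    rw [CharP.charP_iff_prime_eq_zero hℓ]
    have : ((ℓ : ℕ) : integralClosure ℤ Qb ⧸ Q) = Ideal.Quotient.mk Q ((ℓ : ℕ) : integralClosure ℤ Qb) := by
      simp
    rw [this, Ideal.Quotient.eq_zero_iff_mem]
    exact hℓQ
  have hsurj : Function.Surjective (frobenius (integralClosure ℤ Qb ⧸ Q) ℓ) := by
    intro a
    obtain ⟨a, rfl⟩ := Ideal.Quotient.mk_surjective a
    obtain ⟨b, hb⟩ := IsAlgClosed.exists_pow_nat_eq (a : Qb) hℓ.pos
    have hbint : IsIntegral ℤ b := IsIntegral.of_pow hℓ.pos (hb ▸ a.2)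
    refine ⟨Ideal.Quotient.mk Q ⟨b, hbint⟩, ?_⟩
    rw [frobenius_def, ← map_pow]
    congr 1
    exact Subtype.ext hb
  have : PerfectRing (integralClosure ℤ Qb ⧸ Q) ℓ := PerfectRing.ofSurjective _ ℓ hsurj
  let frobEquiv : (integralClosure ℤ Qb ⧸ Q) ≃ₐ[ℤ ⧸ P] (integralClosure ℤ Qb ⧸ Q) :=
    AlgEquiv.ofRingEquiv (f := frobeniusEquiv (integralClosure ℤ Qb ⧸ Q) ℓ) (by
      intro t
      obtain ⟨n, rfl⟩ := Ideal.Quotient.mk_surjective t
      show frobenius (integralClosure ℤ Qb ⧸ Q) ℓ (Ideal.Quotient.mk Q (algebraMap ℤ _ n))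
        = Ideal.Quotient.mk Q (algebraMap ℤ _ n)
      simp)
  obtain ⟨⟨σ, hσstab⟩, hσ⟩ :=
    Ideal.Quotient.stabilizerHom_surjective_of_profinite (G := Γ) P Q frobEquiv
  have hfrobQ : ∀ b : integralClosure ℤ Qb, σ • b - b ^ ℓ ∈ Q := by
    intro b
    have h1 := DFunLike.congr_fun hσ (Ideal.Quotient.mk Q b)
    rw [Ideal.Quotient.stabilizerHom_apply] at h1
    rw [← Ideal.Quotient.eq]
    exact h1
  have hstabQ : ∀ b : integralClosure ℤ Qb, b ∈ Q ↔ σ • b ∈ Q := by
    intro b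
    rw [MulAction.mem_stabilizer_iff] at hσstab
    conv_rhs => rw [← hσstab]
    exact (Ideal.smul_mem_pointwise_smul_iff).symm
  refine ⟨A, σ, hA, isFrobeniusAt_of_stab ℓ hℓ A hA σ ?_ ?_⟩
  · intro b hb
    exact hstabQ ⟨b, hb⟩
  · intro b hb
    exact hfrobQ ⟨b, hb⟩

end

end Fermat.Agent.S54
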