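-- Statement S21 (Eichler–Shimura in weight 2): the period map pair of level `N` is injective
-- with range exactly the parabolic homomorphisms.  Proof: `Fermat/Agent/S21/*.lean`
-- (primitives of cusp forms and their expansions at all cusps, maximum principle for injectivity,
-- cocycle / orbit-sum dimension count for the parabolic cohomology), combined with the dimension
-- formula S20 (`Fermat.Agent.S20.result`) and the orbit counts of `Fermat/Agent/S24/Comb.lean`.
import Fermat.Statements.S21
import Fermat.Agent.S21.Main
import Fermat.Agent.S20

set_option autoImplicit false
open ModularCurve

namespace Fermat.Agent.S21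

theorem result (N : ℕ) [NeZero N] :
    Function.Injective (ModularCurve.periodHomPair N)
      ∧ LinearMap.range (ModularCurve.periodHomPair N)
          = ModularCurve.Period.parabolicHoms ℂ (CongruenceSubgroup.Gamma0 N) ℂ :=
  Fermat.Agent.S21.main N (Fermat.Agent.S20.result N)

end Fermat.Agent.S21
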