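import Fermat.Statements.S49
import Fermat.Agent.S49.AbstractLift
import Fermat.Agent.S49.Coeffs
import Fermat.Agent.S49.Forms
import Fermat.Prelude.Thm_CuspForm_intLattice_fg
import Fermat.Prelude.Thm_CuspForm_mem_intLattice_of_mem_heckeAlgebra

set_option autoImplicit false
open CuspForm EisensteinWeightOne CongruenceSubgroup ModularFormClass
open FLT FLT.AbstractIntegralStructure

namespace Fermat.Agent.S49

/-- Every Hecke operator acts on the realising form `f` as an integer modulo `3 L`. -/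
theorem hecke_congruence_mod_three
    {N : ℕ} [NeZero N] {a : ℕ → ℤ}
    (heig : FormalHecke.IsEigensystem
      (fun ℓ => if ℓ ∣ N then 0 else ((chiNegThree ℓ : ℤ) : ℤ)) a)
    (f : CuspForm (Gamma0 N) 2) (af : ℕ → ℤ)
    (haf : ∀ n, (af n : ℂ) = ModularFormClass.qCoeff f n)
    (haf' : ∀ n, (3 : ℤ) ∣ af n - a n) :
    (∀ (ℓ : ℕ) (hℓ : ℓ.Prime) (hℓN : ¬ ℓ ∣ N), ∃ g ∈ CuspForm.intLattice N 2,
      CuspForm.heckeTLin 2 hℓ hℓN f - a ℓ • f = ((3 : ℕ) : ℤ) • g) ∧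
    (∀ (q : ℕ) (_ : q.Prime) (hqN : q ∣ N), ∃ g ∈ CuspForm.intLattice N 2,
      CuspForm.heckeULin 2 hqN f - a q • f = ((3 : ℕ) : ℤ) • g) := by
  constructor
  · intro ℓ hℓ hℓN
    refine exists_mem_intLattice_zsmul_eq _ 3 (by norm_num) (fun n => ?_)
    obtain ⟨m, hm⟩ := three_dvd_heckeT_sub heig haf' hℓ hℓN n
    refine ⟨m, ?_⟩
    have hm' : ((af (n * ℓ) + (if ℓ ∣ n then (ℓ : ℤ) * af (n / ℓ) else 0) - a ℓ * af n : ℤ) : ℂ)
        = ((3 * m : ℤ) : ℂ) := by rw [hm]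
    simp only [qCoeff_sub, qCoeff_zsmul, qCoeff_heckeTLin, ← haf]
    by_cases hd : ℓ ∣ n
    · simp only [hd, if_true] at hm' ⊢
      push_cast at hm' ⊢
      exact hm'
    · simp only [hd, if_false] at hm' ⊢
      push_cast at hm' ⊢
      exact hm'
  · intro q hq hqN
    refine exists_mem_intLattice_zsmul_eq _ 3 (by norm_num) (fun n => ?_)
    obtain ⟨m, hm⟩ := three_dvd_heckeU_sub heig haf' hq hqN n
    refine ⟨m, ?_⟩
    have hm' : ((af (n * q) - a q * af n : ℤ) : ℂ) = ((3 * m : ℤ) : ℂ) := by rw [hm]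
    simp only [qCoeff_sub, qCoeff_zsmul, qCoeff_heckeULin hq hqN, ← haf]
    push_cast at hm' ⊢
    exact hm'

/-- Every element of the Hecke algebra acts on the realising form `f` as an integer modulo
`3 L`. -/
theorem heckeAlgebra_congruence_mod_three
    {N : ℕ} [NeZero N] {a : ℕ → ℤ}
    (heig : FormalHecke.IsEigensystem
      (fun ℓ => if ℓ ∣ N then 0 else ((chiNegThree ℓ : ℤ) : ℤ)) a)
    (f : CuspForm (Gamma0 N) 2) (af : ℕ → ℤ)
    (haf : ∀ n, (af n : ℂ) = ModularFormClass.qCoeff f n)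
    (haf' : ∀ n, (3 : ℤ) ∣ af n - a n)
    (t : Module.End ℂ (CuspForm (Gamma0 N) 2)) (ht : t ∈ CuspForm.heckeAlgebra N 2 ∅) :
    ∃ n : ℤ, ∃ g ∈ CuspForm.intLattice N 2, t f - n • f = ((3 : ℕ) : ℤ) • g := by
  obtain ⟨hT, hU⟩ := hecke_congruence_mod_three heig f af haf haf'
  induction ht using Algebra.adjoin_induction with
  | mem x hx =>
    rcases hx with ⟨ℓ, hℓ, hℓN, -, rfl⟩ | ⟨q, hqN, hq, -, rfl⟩
    · exact ⟨a ℓ, hT ℓ hℓ hℓN⟩
    · exact ⟨a q, hU q hq hqN⟩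
  | algebraMap r =>
    refine ⟨r, 0, Submodule.zero_mem _, ?_⟩
    rw [smul_zero, sub_eq_zero, Algebra.algebraMap_eq_smul_one, LinearMap.smul_apply]
    rfl
  | add x y hx hy ihx ihy =>
    obtain ⟨n₁, g₁, hg₁, h₁⟩ := ihx
    obtain ⟨n₂, g₂, hg₂, h₂⟩ := ihy
    refine ⟨n₁ + n₂, g₁ + g₂, Submodule.add_mem _ hg₁ hg₂, ?_⟩
    rw [LinearMap.add_apply, add_smul, smul_add, ← h₁, ← h₂]
    abel
  | mul x y hx hy ihx ihy =>
    obtain ⟨n₁, g₁, hg₁, h₁⟩ := ihx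
    obtain ⟨n₂, g₂, hg₂, h₂⟩ := ihy
    refine ⟨n₁ * n₂, x g₂ + n₂ • g₁, Submodule.add_mem _
      (CuspForm.mem_intLattice_of_mem_heckeAlgebra (by norm_num) hx hg₂)
      (Submodule.smul_mem _ _ hg₁), ?_⟩
    have e₁ : x f = n₁ • f + ((3 : ℕ) : ℤ) • g₁ := by rw [← h₁]; abel
    have e₂ : y f = n₂ • f + ((3 : ℕ) : ℤ) • g₂ := by rw [← h₂]; abel
    rw [Module.End.mul_apply, e₂, map_add, map_zsmul, map_zsmul, e₁]
    module

theorem result
    {N : ℕ} [NeZero N] (h : CuspForm.HasIntegralBasis N) {a : ℕ → ℤ}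
    (heig : FormalHecke.IsEigensystem
      (fun ℓ => if ℓ ∣ N then 0 else ((chiNegThree ℓ : ℤ) : ℤ)) a)
    (hreal : CuspForm.IsLatticeRealized N a) :
    ∃ (f : CuspForm (Gamma0 N) 2) (_ : f.IsNormalizedEigenform)
      (𝔪' : Ideal (integralClosure ℤ ℂ)), 𝔪'.IsMaximal ∧
      ((3 : ℕ) : integralClosure ℤ ℂ) ∈ 𝔪' ∧
      ∀ (ℓ : ℕ) (_ : ℓ.Prime) (_ : ¬ ℓ ∣ N),
        ∃ c : integralClosure ℤ ℂ, (c : ℂ) = ModularFormClass.qCoeff f ℓ ∧
          c - (a ℓ : integralClosure ℤ ℂ) ∈ 𝔪' := by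
  classical
  obtain ⟨f, -, af, haf, hcong⟩ := hreal
  have haf' : ∀ n, (3 : ℤ) ∣ af n - a n := fun n => by
    have h1 := three_dvd_bridgeProduct_coeff_sub a n
    have h2 := hcong n
    have h3 := dvd_add h2 h1
    rwa [sub_add_sub_cancel] at h3
  have hfL : f ∈ CuspForm.intLattice N 2 :=
    mem_intLattice_of_forall_int f (fun n => ⟨af n, (haf n).symm⟩)
  obtain ⟨hT, hU⟩ := hecke_congruence_mod_three heig f af haf haf'
  -- the ring hom `ρ`
  let ρ : CuspForm.heckeAlgebra N 2 ∅ →+* Module.End ℂ (CuspForm (Gamma0 N) 2) :=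
    (CuspForm.heckeAlgebra N 2 ∅).val.toRingHom
  have hρ : ∀ t : CuspForm.heckeAlgebra N 2 ∅, ρ t = (t : Module.End ℂ (CuspForm (Gamma0 N) 2)) :=
    fun _ => rfl
  have hLstab : ∀ t : CuspForm.heckeAlgebra N 2 ∅, ∀ v ∈ CuspForm.intLattice N 2,
      ρ t v ∈ CuspForm.intLattice N 2 := fun t v hv =>
    CuspForm.mem_intLattice_of_mem_heckeAlgebra (by norm_num) t.2 hv
  have hf3 : ∀ g ∈ CuspForm.intLattice N 2, f ≠ ((3 : ℕ) : ℤ) • g := by
    intro g hg hfg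
    obtain ⟨m, hm⟩ := exists_int_qCoeff_of_mem_intLattice hg 1
    have h1 : (af 1 : ℂ) = ((3 * m : ℤ) : ℂ) := by
      rw [haf 1, hfg, qCoeff_zsmul, hm]
      push_cast
      ring
    have h1' : af 1 = 3 * m := by exact_mod_cast h1
    have h2 := haf' 1
    rw [heig.1, h1'] at h2
    omega
  have hθ : ∀ t : CuspForm.heckeAlgebra N 2 ∅, ∃ n : ℤ, ∃ g ∈ CuspForm.intLattice N 2,
      ρ t f - n • f = ((3 : ℕ) : ℤ) • g := fun t =>
    heckeAlgebra_congruence_mod_three heig f af haf haf' t.1 t.2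
  obtain ⟨g, μ, hg0, hμ, 𝔪', hmax, h3, hlift⟩ :=
    exists_eigenvector_lift ρ (CuspForm.intLattice N 2) (CuspForm.intLattice_fg N 2) hLstab 3
      Nat.prime_three f hfL hf3 hθ
  -- eigenvalue function
  let lam : ℕ → ℂ := fun p =>
    if hp : p.Prime then
      (if hpN : p ∣ N then μ (CuspForm.heckeAlgebra.U hp hpN (Set.notMem_empty p))
        else μ (CuspForm.heckeAlgebra.T hp hpN (Set.notMem_empty p)))
    else 0
  have hlamT : ∀ (p : ℕ) (hp : p.Prime) (hpN : ¬ p ∣ N),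
      lam p = μ (CuspForm.heckeAlgebra.T hp hpN (Set.notMem_empty p)) := by
    intro p hp hpN
    simp only [lam, dif_pos hp, dif_neg hpN]
  have hlamU : ∀ (p : ℕ) (hp : p.Prime) (hpN : p ∣ N),
      lam p = μ (CuspForm.heckeAlgebra.U hp hpN (Set.notMem_empty p)) := by
    intro p hp hpN
    simp only [lam, dif_pos hp, dif_pos hpN]
  have hgT : ∀ p : ℕ, p.Prime → ¬ p ∣ N → ∀ n : ℕ,
      qCoeff g (n * p) + (if p ∣ n then (p : ℂ) * qCoeff g (n / p) else 0) =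
        lam p * qCoeff g n := by
    intro p hp hpN n
    have e := hμ (CuspForm.heckeAlgebra.T hp hpN (Set.notMem_empty p))
    have e' : CuspForm.heckeTLin 2 hp hpN g = lam p • g := by rw [hlamT p hp hpN]; exact e
    rw [← qCoeff_heckeTLin hp hpN g n, e', qCoeff_smul]
  have hgU : ∀ p : ℕ, p.Prime → p ∣ N → ∀ n : ℕ,
      qCoeff g (n * p) = lam p * qCoeff g n := by
    intro p hp hpN n
    have e := hμ (CuspForm.heckeAlgebra.U hp hpN (Set.notMem_empty p))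
    have e' : CuspForm.heckeULin 2 hpN g = lam p • g := by rw [hlamU p hp hpN]; exact e
    rw [← qCoeff_heckeULin hp hpN g n, e', qCoeff_smul]
  have hb1 : qCoeff g 1 ≠ 0 := by
    intro h1
    apply hg0
    apply eq_zero_of_forall_qCoeff_eq_zero
    intro n
    rcases Nat.eq_zero_or_pos n with rfl | hn
    · exact qCoeff_index_zero g
    · exact eq_zero_of_hecke_recursion N (fun n => qCoeff g n) lam h1 hgT hgU n hn
  -- normalise
  set g₁ : CuspForm (Gamma0 N) 2 := (qCoeff g 1)⁻¹ • g with hg₁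
  have hq : ∀ n, qCoeff g₁ n = (qCoeff g 1)⁻¹ * qCoeff g n := fun n => qCoeff_smul _ g n
  have h11 : qCoeff g₁ 1 = 1 := by rw [hq, inv_mul_cancel₀ hb1]
  have hg₁T : ∀ p : ℕ, p.Prime → ¬ p ∣ N → ∀ n : ℕ,
      qCoeff g₁ (n * p) + (if p ∣ n then (p : ℂ) * qCoeff g₁ (n / p) else 0) =
        lam p * qCoeff g₁ n := by
    intro p hp hpN n
    have e := hgT p hp hpN n
    simp only [hq]
    by_cases hd : p ∣ n
    · simp only [hd, if_true] at e ⊢
      linear_combination (qCoeff g 1)⁻¹ * e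
    · simp only [hd, if_false] at e ⊢
      linear_combination (qCoeff g 1)⁻¹ * e
  have hg₁U : ∀ p : ℕ, p.Prime → p ∣ N → ∀ n : ℕ,
      qCoeff g₁ (n * p) = lam p * qCoeff g₁ n := by
    intro p hp hpN n
    have e := hgU p hp hpN n
    rw [hq, hq]
    linear_combination (qCoeff g 1)⁻¹ * e
  have hlam : ∀ p : ℕ, p.Prime → lam p = qCoeff g₁ p := by
    intro p hp
    by_cases hpN : p ∣ N
    · have e := hg₁U p hp hpN 1
      rw [one_mul, h11, mul_one] at e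
      exact e.symm
    · have e := hg₁T p hp hpN 1
      have hnd : ¬ p ∣ 1 := fun hd => hp.one_lt.ne' (Nat.dvd_one.1 hd)
      rw [one_mul, h11, mul_one, if_neg hnd, add_zero] at e
      exact e.symm
  obtain ⟨hmul, hpowT, hpowU⟩ := multiplicative_of_hecke_recursion N (fun n => qCoeff g₁ n) h11
    (fun p hp hpN n => by rw [← hlam p hp]; exact hg₁T p hp hpN n)
    (fun p hp hpN n => by rw [← hlam p hp]; exact hg₁U p hp hpN n)
  refine ⟨g₁, ⟨h11, hmul, hpowT, hpowU⟩, 𝔪', hmax, h3, ?_⟩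
  intro ℓ hℓ hℓN
  obtain ⟨c, hc, hcm⟩ := hlift (CuspForm.heckeAlgebra.T hℓ hℓN (Set.notMem_empty ℓ)) (a ℓ)
    (hT ℓ hℓ hℓN)
  exact ⟨c, by rw [hc, ← hlamT ℓ hℓ hℓN, hlam ℓ hℓ], hcm⟩

end Fermat.Agent.S49
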