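import Fermat.Statements.S53
import Fermat.Agent.S53.IsDefPm
import Fermat.Agent.S53.UnivTower
import Fermat.Agent.S53.ProRing
import Fermat.Agent.S53.LimRep
import Fermat.Agent.S53.Universal

set_option autoImplicit false
set_option autoImplicit false
open GaloisRep

namespace Fermat.Agent.S53

open IsLocalRing

/-- `ResidualGaloisRep.IsEquiv` is symmetric. -/
theorem resIsEquiv_symm {k : Type} [Field k] {ρ ρ' : ResidualGaloisRep k}
    (h : ρ.IsEquiv ρ') : ρ'.IsEquiv ρ :=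
  h.elim fun e => ⟨e.symm⟩

/-- `ResidualGaloisRep.IsEquiv` is transitive. -/
theorem resIsEquiv_trans {k : Type} [Field k] {ρ ρ' ρ'' : ResidualGaloisRep k}
    (h : ρ.IsEquiv ρ') (h' : ρ'.IsEquiv ρ'') : ρ.IsEquiv ρ'' :=
  h.elim fun e => h'.elim fun e' => ⟨e.trans e'⟩

/-- Isomorphic adic representations have isomorphic residual representations. -/
theorem residual_isEquiv_of_isEquiv {A : Type} [CommRing A] [IsLocalRing A]
    {ρ ρ' : GaloisRepAdic A} (h : ρ.IsEquiv ρ') : ρ.residual.IsEquiv ρ'.residual :=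
  h.elim fun e => ⟨e.residual⟩

/-- A deformation condition is invariant under isomorphism over complete noetherian local
`𝒪`-algebras. -/
theorem cond_of_isEquiv {𝒪 : Type} [CommRing 𝒪]
    {𝒟 : ∀ ⦃A : Type⦄ [CommRing A] [IsLocalRing A] [Algebra 𝒪 A], GaloisRepAdic A → Prop}
    (h𝒟 : GaloisRep.IsDeformationCondition 𝒪 𝒟)
    {A : Type} [CommRing A] [IsLocalRing A] [IsNoetherianRing A]
    [IsAdicComplete (maximalIdeal A) A] [Algebra 𝒪 A] (hloc : IsLocalHom (algebraMap 𝒪 A))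
    (hsurj : Function.Surjective (IsLocalRing.residue A ∘ algebraMap 𝒪 A))
    {ρ ρ' : GaloisRepAdic A} (he : ρ.IsEquiv ρ') (h : 𝒟 ρ) : 𝒟 ρ' := by
  rw [h𝒟.iff_forall_surjective hloc hsurj] at h ⊢
  intro B _ _ _ hB q hq hqs
  exact h𝒟.of_isEquiv hB (isEquiv_baseChangeAlong _ hq he) (h hB q hq hqs)

theorem result
    (𝒪 : Type) [CommRing 𝒪] [IsDomain 𝒪] [IsDiscreteValuationRing 𝒪]
    [IsAdicComplete (IsLocalRing.maximalIdeal 𝒪) 𝒪] [Finite (IsLocalRing.ResidueField 𝒪)]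
    (ρbar : ResidualGaloisRep (IsLocalRing.ResidueField 𝒪))
    (𝒟 : ∀ ⦃A : Type⦄ [CommRing A] [IsLocalRing A] [Algebra 𝒪 A], GaloisRepAdic A → Prop)
    (habs : ρbar.IsAbsolutelyIrreducible)
    (h𝒟 : GaloisRep.IsDeformationCondition 𝒪 𝒟)
    (hbar : 𝒟 (GaloisRepAdic.ofResidualGaloisRep ρbar))
    (hfin : GaloisRep.TangentFinite 𝒪 ρbar 𝒟) :
    Nonempty (GaloisRep.DeformationRingData 𝒪 ρbar 𝒟) := by
  classical
  -- a basis of the residual representation, and its matrix form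
  let b : Module.Basis (Fin 2) (ResidueField 𝒪) ρbar.V :=
    Module.finBasisOfFinrankEq (ResidueField 𝒪) ρbar.V ρbar.finrank_eq
  have hdef : IsDef (matRep ρbar b) (Pm 𝒪 𝒟) := isDef_Pm ρbar b 𝒟 habs h𝒟 hbar hfin
  -- the tower of universal pairs and its limit ring
  obtain ⟨T⟩ := nonempty_univTower (matRep ρbar b) (Pm 𝒪 𝒟) hdef
  obtain ⟨Rg⟩ := nonempty_proRing T.toTower T.d T.good
  -- the limit representation
  obtain ⟨rR, hrR⟩ := exists_limRep T Rg
  have hlift : IsLift (matRep ρbar b) rR := limRep_isLift T Rg rR hrR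
  have hc : IsCts rR := limRep_isCts T Rg rR hrR
  have hcond : 𝒟 (ofMatrix rR hc) := limRep_cond h𝒟 hdef T Rg rR hrR hc
  refine ⟨{
    R := Rg.R
    residue_surjective := Rg.res_surj
    absIrr := habs
    ρ := ofMatrix rR hc
    isOfType := hcond
    residual_isEquiv := (residual_isEquiv_iff ρbar b rR hc).2 ⟨rR, Conj.refl rR, hlift⟩
    universal := ?_ }⟩
  intro A _ _ _ _ _ _ hsurj ρA hρA hresA
  -- put `ρA` in matrix form, strictly lifting the residual matrix representation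
  obtain ⟨s₀, hc₀, e₀⟩ := exists_isEquiv_ofMatrix ρA
  have hres₀ : (ofMatrix s₀ hc₀).residual.IsEquiv
      (ρbar.baseChangeAlong (ResidueField.map (algebraMap 𝒪 A))) :=
    resIsEquiv_trans (residual_isEquiv_of_isEquiv (isEquiv_symm e₀)) hresA
  obtain ⟨s, hconj, hs⟩ := (residual_isEquiv_iff ρbar b s₀ hc₀).1 hres₀
  have hcs : IsCts s := hc₀.of_conj hconj
  have e₁ : ρA.IsEquiv (ofMatrix s hcs) :=
    isEquiv_trans e₀ ((isEquiv_ofMatrix_iff s₀ s hc₀ hcs).2 hconj)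
  have h𝒟s : 𝒟 (ofMatrix s hcs) := cond_of_isEquiv h𝒟 inferInstance hsurj e₁ hρA
  obtain ⟨φ, ⟨hφloc, hφ⟩, huniq⟩ :=
    limRep_universal h𝒟 hdef T Rg rR hrR A hsurj s hs hcs h𝒟s
  refine ⟨φ, ⟨hφloc, ?_⟩, ?_⟩
  · -- existence
    have hcφ : IsCts (mapRep (φ : Rg.R →+* A) rR) := hc.map _ hφloc
    exact isEquiv_trans (baseChangeAlong_ofMatrix _ hφloc rR hc hcφ)
      (isEquiv_trans ((isEquiv_ofMatrix_iff _ s hcφ hcs).2 hφ) (isEquiv_symm e₁))
  · -- uniqueness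
    rintro φ' ⟨hφ'loc, hφ'⟩
    apply huniq
    refine ⟨hφ'loc, ?_⟩
    have hcφ' : IsCts (mapRep (φ' : Rg.R →+* A) rR) := hc.map _ hφ'loc
    exact (isEquiv_ofMatrix_iff _ s hcφ' hcs).1
      (isEquiv_trans (isEquiv_symm (baseChangeAlong_ofMatrix _ hφ'loc rR hc hcφ'))
        (isEquiv_trans hφ' e₁))

end Fermat.Agent.S53
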