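import Fermat.Statements.S54
import Fermat.Agent.S54_Frob

set_option autoImplicit false
open GaloisRep GaloisRep.DeformationRingData

namespace Fermat.Agent.S54

open Polynomial in
/-- If `ρ₂` is the base change of `ρ₁` along `φ`, then the characteristic polynomials of `ρ₂` are the
images of those of `ρ₁`. -/
theorem charpoly_of_isEquiv_baseChangeAlong {R T : Type} [CommRing R] [IsLocalRing R] [CommRing T]
    [IsLocalRing T] (φ : R →+* T) (hφ : IsLocalHom φ) (ρ₁ : GaloisRepAdic R) (ρ₂ : GaloisRepAdic T)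
    (h : (ρ₁.baseChangeAlong φ hφ).IsEquiv ρ₂) (σ : AlgebraicClosure ℚ ≃ₐ[ℚ] AlgebraicClosure ℚ) :
    LinearMap.charpoly (ρ₂.ρ σ) = (LinearMap.charpoly (ρ₁.ρ σ)).map φ := by
  obtain ⟨e⟩ := h
  have hconj : ρ₂.ρ σ = e.toLinearEquiv.conj ((ρ₁.baseChangeAlong φ hφ).ρ σ) := by
    apply LinearMap.ext
    intro x
    rw [LinearEquiv.conj_apply, LinearMap.comp_apply, LinearMap.comp_apply,
      LinearEquiv.coe_coe, LinearEquiv.coe_coe, e.map_apply, LinearEquiv.apply_symm_apply]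
  rw [hconj, LinearEquiv.charpoly_conj]
  let _ : Algebra R T := φ.toAlgebra
  exact LinearMap.charpoly_baseChange (A := T) (ρ₁.ρ σ)

theorem result {𝒪 : Type} [CommRing 𝒪] [IsDomain 𝒪] [IsDiscreteValuationRing 𝒪] [IsAdicComplete (IsLocalRing.maximalIdeal 𝒪) 𝒪] {ρbar : ResidualGaloisRep (IsLocalRing.ResidueField 𝒪)} {𝒟 : ∀ ⦃A : Type⦄ [CommRing A] [IsLocalRing A] [Algebra 𝒪 A], GaloisRepAdic A → Prop} (D : GaloisRep.DeformationRingData 𝒪 ρbar 𝒟) {N : ℕ} [NeZero N] {S : Set ℕ} {θ : CuspForm.heckeAlgebra N 2 S →+* IsLocalRing.ResidueField 𝒪} {T : Type} [CommRing T] [IsLocalRing T] [IsNoetherianRing T] [IsAdicComplete (IsLocalRing.maximalIdeal T) T] [Algebra 𝒪 T] [IsLocalHom (algebraMap 𝒪 T)] [Module.Finite 𝒪 T] [Module.Free 𝒪 T] (H : CuspForm.HeckeGaloisRepDatum N S 𝒪 θ T) (hS : ∀ q : ℕ, q.Prime → q ∣ N → q ∈ S) (h𝒟 : 𝒟 H.ρ) (hres : H.ρ.residual.IsEquiv (ρbar.baseChangeAlong (IsLocalRing.ResidueField.map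 (algebraMap 𝒪 T)))) : ∃ φ : D.R →ₐ[𝒪] T, Function.Surjective φ ∧ ∃ hφ : IsLocalHom (φ : D.R →+* T), (D.ρ.baseChangeAlong (φ : D.R →+* T) hφ).IsEquiv H.ρ := by
  obtain ⟨φ, ⟨hφ, hequiv⟩, -⟩ := D.universal T H.residue_surjective H.ρ h𝒟 hres
  refine ⟨φ, ?_, hφ, hequiv⟩
  rw [← AlgHom.range_eq_top, eq_top_iff, ← H.adjoin_range_π]
  apply Algebra.adjoin_le
  rintro _ ⟨⟨t, ht⟩, rfl⟩
  show H.π ⟨t, ht⟩ ∈ φ.range
  induction ht using Algebra.adjoin_induction with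
  | mem x hx =>
    rcases hx with ⟨ℓ, hℓ, hℓN, hℓS, rfl⟩ | ⟨q, hqN, hq, hqS, rfl⟩
    · obtain ⟨A, σ, hA, hσ⟩ := exists_frobenius ℓ hℓ
      have h1 := H.charpoly_frob ℓ hℓ hℓN hℓS A hA σ hσ
      have h2 := charpoly_of_isEquiv_baseChangeAlong (φ : D.R →+* T) hφ D.ρ H.ρ hequiv σ
      rw [h1] at h2
      have h3 := congrArg (fun p : Polynomial T => p.coeff 1) h2
      simp only [Polynomial.coeff_map] at h3
      have h4 : (Polynomial.X ^ 2 - Polynomial.C (H.π (CuspForm.heckeAlgebra.T hℓ hℓN hℓS)) * Polynomial.X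
          + Polynomial.C ((ℓ : T)) : Polynomial T).coeff 1
          = - H.π (CuspForm.heckeAlgebra.T hℓ hℓN hℓS) := by
        simp [Polynomial.coeff_X_pow, Polynomial.coeff_C]
      rw [h4] at h3
      refine ⟨-((LinearMap.charpoly (D.ρ.ρ σ)).coeff 1), ?_⟩
      show φ (-((LinearMap.charpoly (D.ρ.ρ σ)).coeff 1))
        = H.π (CuspForm.heckeAlgebra.T hℓ hℓN hℓS)
      rw [map_neg]
      have h5 : φ ((LinearMap.charpoly (D.ρ.ρ σ)).coeff 1)
          = (φ : D.R →+* T) ((LinearMap.charpoly (D.ρ.ρ σ)).coeff 1) := rfl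
      rw [h5, ← h3, neg_neg]
    · exact absurd (hS q hq hqN) hqS
  | algebraMap r =>
    have : (⟨algebraMap ℤ _ r, Subalgebra.algebraMap_mem _ r⟩ : CuspForm.heckeAlgebra N 2 S)
        = algebraMap ℤ (CuspForm.heckeAlgebra N 2 S) r := rfl
    rw [this, eq_intCast, map_intCast]
    exact intCast_mem _ r
  | add x y hx hy ihx ihy =>
    have : (⟨x + y, add_mem hx hy⟩ : CuspForm.heckeAlgebra N 2 S) = ⟨x, hx⟩ + ⟨y, hy⟩ := rfl
    rw [this, map_add]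
    exact add_mem ihx ihy
  | mul x y hx hy ihx ihy =>
    have : (⟨x * y, mul_mem hx hy⟩ : CuspForm.heckeAlgebra N 2 S) = ⟨x, hx⟩ * ⟨y, hy⟩ := rfl
    rw [this, map_mul]
    exact mul_mem ihx ihy

end Fermat.Agent.S54
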