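import Fermat.Statements.S57
import Fermat.Agent.S57.RegularFree
import Fermat.Agent.S57.PowerSeriesParams
import Fermat.Agent.S57.Transfer

set_option autoImplicit false
open Algebra Algebra.PatchingLevel

namespace Fermat.Agent.S57

open IsLocalRing RingTheory.Sequence

/-- Coordinates (in a basis) of an element of `I • ⊤` lie in `I`. -/
theorem repr_mem_of_mem_smul_top {A N ι : Type*} [CommRing A] [AddCommGroup N] [Module A N]
    (e : Module.Basis ι A N) (I : Ideal A) {x : N} (hx : x ∈ I • (⊤ : Submodule A N)) (i : ι) :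
    e.repr x i ∈ I := by
  rw [← e.span_eq, Submodule.mem_ideal_smul_span_iff_exists_sum] at hx
  obtain ⟨a, ha, rfl⟩ := hx
  have h : e.repr (a.sum fun i c => c • e i) = a := e.repr_linearCombination a
  rw [h]
  exact ha i

/-- The patched module is finite over the power series ring. -/
theorem finite_patched
    {𝒪 : Type} [CommRing 𝒪]
    {r : ℕ} {R : Type} [CommRing R] [Algebra 𝒪 R]
    {M : Type} [AddCommGroup M] [Module R M]
    {J : Ideal (MvPowerSeries (Fin r) 𝒪)}
    (L : Algebra.PatchingLevel 𝒪 r R M J) :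
    Module.Finite (MvPowerSeries (Fin r) 𝒪) L.N := by
  have h : Submodule.span (MvPowerSeries (Fin r) 𝒪) (Set.range L.b) = ⊤ := by
    rw [_root_.eq_top_iff]
    intro x _
    obtain ⟨c, rfl⟩ := L.b_span x
    exact Submodule.sum_mem _ fun i _ =>
      Submodule.smul_mem _ _ (Submodule.subset_span ⟨i, rfl⟩)
  exact Module.finite_def.2 (h ▸ Submodule.fg_span (Set.finite_range L.b))

/-- Key step: the patched module is free over the power series ring. -/
theorem free_patched
    {𝒪 : Type} [CommRing 𝒪] [IsDomain 𝒪] [IsDiscreteValuationRing 𝒪]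
    {r : ℕ} {R : Type} [CommRing R] [Algebra 𝒪 R]
    {M : Type} [AddCommGroup M] [Module R M] [Nontrivial M]
    (L : Algebra.PatchingLevel 𝒪 r R M ⊥) :
    Module.Free (MvPowerSeries (Fin r) 𝒪) L.N := by
  classical
  obtain ⟨ϖ, hϖ⟩ := IsDiscreteValuationRing.exists_irreducible 𝒪
  have : Nontrivial R := Module.nontrivial R M
  have : Module.Finite (MvPowerSeries (Fin r) 𝒪) L.N := finite_patched L
  have hreg : IsWeaklyRegular L.N ((paramList r ϖ).map (L.φ : MvPowerSeries (Fin r) 𝒪 →+*
      MvPowerSeries (Fin r) 𝒪)) :=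
    isWeaklyRegular_map_of_free_via (L.φ : MvPowerSeries (Fin r) 𝒪 →+* MvPowerSeries (Fin r) 𝒪)
      L.b L.b_span (fun c => by simpa using L.b_rel c) _ (isWeaklyRegular_paramList r hϖ)
  have hmem : ∀ x ∈ (paramList r ϖ).map (L.φ : MvPowerSeries (Fin r) 𝒪 →+*
      MvPowerSeries (Fin r) 𝒪), x ∈ maximalIdeal (MvPowerSeries (Fin r) 𝒪) := by
    intro x hx
    rw [List.mem_map] at hx
    obtain ⟨y, hy, rfl⟩ := hx
    rw [mem_paramList_iff] at hy
    rw [IsLocalRing.mem_maximalIdeal, mem_nonunits_iff]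
    rcases hy with ⟨i, rfl⟩ | rfl
    · intro hu
      have h1 : IsUnit (L.ψ (L.φ (MvPowerSeries.X i))) := hu.map L.ψ
      rw [L.ψ_φ_X] at h1
      exact not_isUnit_zero h1
    · have h2 : (L.φ : MvPowerSeries (Fin r) 𝒪 →+* MvPowerSeries (Fin r) 𝒪)
          (MvPowerSeries.C ϖ) = MvPowerSeries.C ϖ := L.φ.commutes ϖ
      rw [h2]
      intro hu
      have h3 : IsUnit (MvPowerSeries.constantCoeff (MvPowerSeries.C ϖ : MvPowerSeries (Fin r) 𝒪)) :=
        hu.map MvPowerSeries.constantCoeff
      rw [MvPowerSeries.constantCoeff_C] at h3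
      exact hϖ.not_isUnit h3
  exact free_of_isWeaklyRegular_of_length_eq (r + 1) (paramList r ϖ) (paramList_length r ϖ)
    (span_paramList r hϖ) (fun i hi => isPrime_span_take_paramList r hϖ i hi) _
    (by rw [List.length_map, paramList_length]) hmem hreg

theorem result
    {𝒪 : Type} [CommRing 𝒪] [IsDomain 𝒪] [IsDiscreteValuationRing 𝒪]
    {r : ℕ} {R : Type} [CommRing R] [Algebra 𝒪 R]
    {M : Type} [AddCommGroup M] [Module R M] [Nontrivial M]
    (L : Algebra.PatchingLevel 𝒪 r R M ⊥) :
    Module.Free R M ∧ Module.annihilator R M = ⊥ ∧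
      RingHom.ker L.ψ = Ideal.span (Set.range fun i : Fin r => L.φ (MvPowerSeries.X i)) := by
  classical
  have hfree : Module.Free (MvPowerSeries (Fin r) 𝒪) L.N := free_patched L
  have : Module.Finite (MvPowerSeries (Fin r) 𝒪) L.N := finite_patched L
  have : Nontrivial R := Module.nontrivial R M
  let e := Module.Free.chooseBasis (MvPowerSeries (Fin r) 𝒪) L.N
  have : Nontrivial L.N := L.π_surjective.nontrivial
  have hne : Nonempty (Module.Free.ChooseBasisIndex (MvPowerSeries (Fin r) 𝒪) L.N) :=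
    e.index_nonempty
  obtain ⟨i₀⟩ := hne
  set I : Ideal (MvPowerSeries (Fin r) 𝒪) :=
    Ideal.span (Set.range fun i : Fin r => L.φ (MvPowerSeries.X i)) with hI
  have hIle : I ≤ RingHom.ker L.ψ := by
    rw [hI, Ideal.span_le]
    rintro _ ⟨i, rfl⟩
    exact L.ψ_φ_X i
  have hcoord : ∀ c : Module.Free.ChooseBasisIndex (MvPowerSeries (Fin r) 𝒪) L.N →
      MvPowerSeries (Fin r) 𝒪, L.π (∑ i, c i • e i) = 0 → ∀ i, c i ∈ I := by
    intro c hc i
    have h1 := (L.ker_π _).1 hc
    have h2 := repr_mem_of_mem_smul_top e I h1 i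
    rwa [e.repr_sum_self] at h2
  have hπsum : ∀ c : Module.Free.ChooseBasisIndex (MvPowerSeries (Fin r) 𝒪) L.N →
      MvPowerSeries (Fin r) 𝒪, L.π (∑ i, c i • e i) = ∑ i, L.ψ (c i) • L.π (e i) := by
    intro c
    rw [map_sum]
    exact Finset.sum_congr rfl fun i _ => L.π_smul _ _
  have hker : RingHom.ker L.ψ = I := by
    refine le_antisymm ?_ hIle
    intro f hf
    have h := hcoord (fun i => if i = i₀ then f else 0) (by
      rw [hπsum]
      refine Finset.sum_eq_zero fun i _ => ?_
      by_cases hi : i = i₀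
      · simp [hi, (RingHom.mem_ker).1 hf]
      · simp [hi]) i₀
    simpa using h
  have hli : LinearIndependent R (fun i => L.π (e i)) := by
    rw [Fintype.linearIndependent_iff]
    intro g hg i
    choose c hc using fun i => L.ψ_surjective (g i)
    have h := hcoord c (by rw [hπsum]; simpa [hc] using hg) i
    rw [← hc i]
    exact hIle h
  have hsp : ⊤ ≤ Submodule.span R (Set.range fun i => L.π (e i)) := by
    intro m _
    obtain ⟨x, rfl⟩ := L.π_surjective m
    rw [← e.sum_repr x, hπsum]
    exact Submodule.sum_mem _ fun i _ =>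
      Submodule.smul_mem _ _ (Submodule.subset_span ⟨i, rfl⟩)
  refine ⟨Module.Free.of_basis (Module.Basis.mk hli hsp), ?_, hker⟩
  rw [_root_.eq_bot_iff]
  intro a ha
  have h0 : a • L.π (e i₀) = 0 := Module.mem_annihilator.1 ha _
  have h := (Fintype.linearIndependent_iff.1 hli) (fun i => if i = i₀ then a else 0) (by
    refine Finset.sum_eq_zero fun i _ => ?_
    by_cases hi : i = i₀
    · simp [hi, h0]
    · simp [hi]) i₀
  simpa using h

end Fermat.Agent.S57
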